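import Fermat.Agent.MUL.Orig.L.Defs
import Fermat.Agent.MUL.Orig.F3.EigenChar.Defs
import Fermat.Prelude.Def_FreyPackage_LevelRaising
import Fermat.Agent.MUL.Lib.BadRed.Bridge.AuxNew

/-!
# Cluster L (S41, level raising): interface propositions

Architect: helper41.  Blueprint: `NOTES/blueprint-L-S41.md`.  One `Prop` per work package; the
owner proves `theorem xxx : XxxStatement ...` in his own file, consumers take it as a hypothesis.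

Notation: `Λ_K = HomPar K = Hom_par(Γ₀(K), ℤ)` (cluster A, `F3EC`), `T_ℓ = heckeHom K ℓ`,
`α = (resPar, resParD) : Λ_N² → Λ_{Nq}`, `β = (β₁, β₂) : Λ_{Nq} → Λ_N²` the two corestrictions.
-/

set_option autoImplicit false

noncomputable section

namespace Fermat.Agent.L

open CongruenceSubgroup ModularCurve.Period Fermat.Agent.F3EC
open scoped MatrixGroups

/-- **WP DEG** (degeneracy maps on `Hom_par`): the corestrictions exist as `ℤ`-linear maps on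
`HomPar`, `β α = [[q + 1, T_q], [T_q, q + 1]]`, and `α`, `β` commute with `T_ℓ`, `ℓ ∤ N q`. -/
def DegStatement (N q : ℕ) [NeZero q] : Prop :=
  ∀ hq : q.Prime, ¬ q ∣ N →
  ∃ β₁ β₂ : HomPar (N * q) →ₗ[ℤ] HomPar N, IsCoresPair N q β₁ β₂ ∧
    (∀ c : HomPar N, β₁ (resPar N q c) = ((q : ℤ) + 1) • c) ∧
    (∀ c : HomPar N, β₂ (resParD N q c) = ((q : ℤ) + 1) • c) ∧
    (∀ c : HomPar N, β₁ (resParD N q c) = heckeHom N ⟨q, hq⟩ c) ∧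
    (∀ c : HomPar N, β₂ (resPar N q c) = heckeHom N ⟨q, hq⟩ c) ∧
    (∀ ℓ : Nat.Primes, ¬ (ℓ : ℕ) ∣ N * q → ∀ c : HomPar N,
      resPar N q (heckeHom N ℓ c) = heckeHom (N * q) ℓ (resPar N q c)) ∧
    (∀ ℓ : Nat.Primes, ¬ (ℓ : ℕ) ∣ N * q → ∀ c : HomPar N,
      resParD N q (heckeHom N ℓ c) = heckeHom (N * q) ℓ (resParD N q c)) ∧
    (∀ ℓ : Nat.Primes, ¬ (ℓ : ℕ) ∣ N * q → ∀ c : HomPar (N * q),
      β₁ (heckeHom (N * q) ℓ c) = heckeHom N ℓ (β₁ c)) ∧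
    (∀ ℓ : Nat.Primes, ¬ (ℓ : ℕ) ∣ N * q → ∀ c : HomPar (N * q),
      β₂ (heckeHom (N * q) ℓ c) = heckeHom N ℓ (β₂ c))

/-- **WP IHARA** (Ihara's lemma): the kernel of
`α : Hom(Γ₀(N), 𝔽_p)² → Hom(Γ₀(N q), 𝔽_p)` is Eisenstein: there is a modulus `M₀` such that
`T_ℓ = ℓ + 1` on both components of every element of the kernel, for all primes
`ℓ ≡ 1 mod M₀`, `ℓ ∤ N q p`.
(Amalgam `Γ₀(N)[1/q] = Γ₀(N) *_{Γ₀(Nq)} Γ₀(N)^δ` + congruence subgroup property of `SL₂(ℤ[1/q])`.) -/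
def IharaStatement (N q p : ℕ) [NeZero q] : Prop :=
  q.Prime → ¬ q ∣ N → 0 < N → p.Prime → p ≠ 2 → q ≠ p →
  ∃ M₀ : ℕ, 0 < M₀ ∧ ∀ c₁ c₂ : Additive (Gamma0 N) →+ ZMod p,
    resAll N q (ZMod p) c₁ + resAllD N q (ZMod p) c₂ = 0 →
    ∀ (ℓ : ℕ) [Fact ℓ.Prime] (hℓN : ¬ ℓ ∣ N), ¬ ℓ ∣ q → ℓ ≠ p → ℓ ≡ 1 [MOD M₀] →
      heckeHomAll hℓN (ZMod p) c₁ = ((ℓ : ℤ) + 1) • c₁ ∧
      heckeHomAll hℓN (ZMod p) c₂ = ((ℓ : ℤ) + 1) • c₂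

/-- **WP PD** (Poincaré duality mod `p`): bilinear forms on `HomPar N` and `HomPar (N q)`,
reflexive, nondegenerate modulo `p`, for which `α` and `β` are adjoint and the `T_ℓ`
(`ℓ ∤ N q`) at level `N` are self-adjoint. -/
def PDStatement (N q p : ℕ) [NeZero q] : Prop :=
  q.Prime → ¬ q ∣ N → p.Prime → p ≠ 2 → q ≠ p →
  ∀ β₁ β₂ : HomPar (N * q) →ₗ[ℤ] HomPar N, IsCoresPair N q β₁ β₂ →
  ∃ (B : HomPar N →ₗ[ℤ] HomPar N →ₗ[ℤ] ℤ) (B' : HomPar (N * q) →ₗ[ℤ] HomPar (N * q) →ₗ[ℤ] ℤ)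
    (ε : ℤ),
    (ε = 1 ∨ ε = -1) ∧ (∀ x y, B x y = ε * B y x) ∧ (∀ x y, B' x y = ε * B' y x) ∧
    (∀ x : HomPar N, (∀ y, (p : ℤ) ∣ B x y) → ∃ x', x = (p : ℤ) • x') ∧
    (∀ x : HomPar (N * q), (∀ y, (p : ℤ) ∣ B' x y) → ∃ x', x = (p : ℤ) • x') ∧
    (∀ (x : HomPar N) (y : HomPar (N * q)), B' (resPar N q x) y = B x (β₁ y)) ∧
    (∀ (x : HomPar N) (y : HomPar (N * q)), B' (resParD N q x) y = B x (β₂ y)) ∧
    (∀ ℓ : Nat.Primes, ¬ (ℓ : ℕ) ∣ N * q → ∀ x y : HomPar N,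
      B (heckeHom N ℓ x) y = B x (heckeHom N ℓ y))

/-- **WP NONEIS** (the residual representation is not Eisenstein): for every modulus `M₀` and
finite set `S` there is a good prime `ℓ ∉ S`, `ℓ ≡ 1 mod M₀`, with `a_ℓ(W) ≢ ℓ + 1 mod p`.
(From irreducibility of `E[p]`: Frobenius relation on `E[p]` + Frobenius density.) -/
def NonEisStatement (W : WeierstrassCurve ℤ) (p : ℕ) : Prop :=
  ∀ (M₀ : ℕ), 0 < M₀ → ∀ S : Finset ℕ, ∃ ℓ : ℕ, ℓ.Prime ∧ ℓ ∉ S ∧ W.IsGoodPrimeFor ℓ ∧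
    ℓ ≡ 1 [MOD M₀] ∧ ¬ (p : ℤ) ∣ W.apOfModel ℓ - ((ℓ : ℤ) + 1)

/-- **WP NEW** (back to forms): a mod `p` Hecke eigenclass in the new lattice
`ker β ⊆ HomPar (N q)` lifts to a normalised eigenform of level `N q` with `a_q ^ 2 = 1`,
congruent to it modulo a maximal ideal over `p`. -/
def NewStatement (N q : ℕ) [NeZero q] : Prop :=
  q.Prime → ¬ q ∣ N → 0 < N →
  ∀ β₁ β₂ : HomPar (N * q) →ₗ[ℤ] HomPar N, IsCoresPair N q β₁ β₂ →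
  ∀ (p : ℕ), p.Prime → ∀ (a : Nat.Primes → ℤ) (P : Set Nat.Primes),
    (∀ ℓ ∈ P, ¬ (ℓ : ℕ) ∣ N * q) →
    ∀ b : HomPar (N * q), β₁ b = 0 → β₂ b = 0 → (¬ ∃ b' : HomPar (N * q), b = (p : ℤ) • b') →
      (∀ ℓ ∈ P, ∃ b' : HomPar (N * q), heckeHom (N * q) ℓ b - a ℓ • b = (p : ℤ) • b') →
      ∃ (g : CuspForm (Gamma0 (N * q)) 2) (𝔪' : Ideal (integralClosure ℤ ℂ)),
        g.IsNormalizedEigenform ∧ 𝔪'.IsMaximal ∧ (p : integralClosure ℤ ℂ) ∈ 𝔪' ∧ g.IsNewAt q ∧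
        ∀ ℓ ∈ P, ∃ x : integralClosure ℤ ℂ, (x : ℂ) = ModularFormClass.qCoeff g (ℓ : ℕ) ∧
          x - ((a ℓ : ℤ) : integralClosure ℤ ℂ) ∈ 𝔪'

end Fermat.Agent.L
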